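/-
S55 / route C′, CLOSED FORMS of the four S55 inputs consumed by S56 (helper904).  No `sorry`.

For every odd prime `p` and every finite `S ∋ p`, unconditionally:

* `surj2Glob` : `PT.Surj2GlobSpec p S`   (A3; `K.AR.H4.surj2Glob` + layer G `GAD.globalSpecFin`)
* `surj2Loc`  : `PT.Surj2LocSpec p S`    (A4; `KL.A4.surj2Loc`)
* `invSpec`   : `PT.InvSpec p S`         (A5–A7; `PT.invSpec_of_rec` + reciprocity + GO4:
                                          SHAP `H593.shapLeaf`, LD `H978.locDesc`, ASM `GO4.asm`,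
                                          COKER tower `K.AR.H4.cokerTower`, DEG `H181.decLeaf`)
* `capSpec`   : `PT.CapSpec p S`         (A8; `Cap.H303.capSpec_of_finRec` + `GAD.finRecAll`)
* `four`      : the conjunction, in the exact shape of the hypothesis of
                `S56.Euler.baseBig_of_p1`.
-/
import Fermat.Agent.S55.PT.Final4
import Fermat.Agent.S55.K.AR.ClosedH4
import Fermat.Agent.S55.GAD.ClosedFR
import Fermat.Agent.S55.Cap.ClosedH303
import Fermat.Agent.S55.Inv.GO4.AsmE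
import Fermat.Agent.S55.Inv.GO4.ShapH593
import Fermat.Agent.S55.Inv.GO4.H978.LocDesc
import Fermat.Agent.S55.G.Rec.ClosedH904

set_option autoImplicit false

noncomputable section

namespace Fermat.Agent.S55.Closed.H904

open Fermat.Agent.S55 Fermat.Agent.S55.PT ExtCitation

variable (p : ℕ) [Fact p.Prime] (S : Finset Nat.Primes)

/-- Layer G, closed: the good tower datum. -/
theorem globalSpecFin (hp2 : p ≠ 2) (hpS : pPrime p ∈ S) : Tow.GlobalSpecFin S p :=
  GAD.globalSpecFin S p hp2 hpS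

/-- **A3, closed.** -/
theorem surj2Glob (hp2 : p ≠ 2) (hpS : pPrime p ∈ S) : Surj2GlobSpec p S :=
  K.AR.H4.surj2Glob p S (globalSpecFin p S hp2 hpS) hp2 hpS

/-- **A4, closed.** -/
theorem surj2Loc : Surj2LocSpec p S := KL.A4.surj2Loc p S

/-- **GO4 (finite-level coker statement), closed.** -/
theorem cokerE (hp2 : p ≠ 2) (hpS : pPrime p ∈ S) : Inv.CokerESpec p S :=
  Inv.GO4.asm p S
    (Inv.GO4.H593.shapLeaf p S (K.AR.H4.cokerTower (globalSpecFin p S hp2 hpS) hp2 hpS))
    (Inv.GO4.H978.locDesc p S (Fact.out : p.Prime)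
      (K.AR.H181.decLeaf S p ⟨(Fact.out : p.Prime), hp2, hpS⟩))

/-- **A5–A7 (`InvSpec`), closed.** -/
theorem invSpec (hp2 : p ≠ 2) (hpS : pPrime p ∈ S) : InvSpec p S := by
  obtain ⟨I⟩ := G.Rec.H904.nonempty_localInvSystem
  exact invSpec_of_rec hp2 S hpS I (G.Rec.H904.reciprocity I p hp2) (cokerE p S hp2 hpS)

/-- **A8 (`CapSpec`), closed.** -/
theorem capSpec (hp2 : p ≠ 2) (hpS : pPrime p ∈ S) : CapSpec p S :=
  Cap.H303.capSpec_of_finRec GAD.finRecAll hp2 hpS

/-- **The four S55 inputs of route C′**, in the shape consumed by `S56.Euler.baseBig_of_p1`. -/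
theorem four (hp2 : p ≠ 2) (hpS : pPrime p ∈ S) :
    Surj2GlobSpec p S ∧ Surj2LocSpec p S ∧ InvSpec p S ∧ CapSpec p S :=
  ⟨surj2Glob p S hp2 hpS, surj2Loc p S, invSpec p S hp2 hpS, capSpec p S hp2 hpS⟩

end Fermat.Agent.S55.Closed.H904

end
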